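/-
S45lib / ModK / Datum  (helper5)  --  block (Inst_k) of Project J

**THE MODULAR MULTI-COMPONENT THICK DATUM at level `M q^k`** (generalisation of
`S36lib/Inst/{Datum,Ctx}.lean`, which is the case `k = 2`), LEVEL-GENERIC: the level is a variable
`L` (`[NeZero L]`), and the numerical statements take `hL : L = M * q ^ k` (use `Tower.lev_eq` for
`L = Tower.lev M q k`, `rfl` for `L = M * q ^ k`).

`A | q` a valuation subring of `ℚ̄`, `q ∤ M`, `K = Kfix A`, `R = Wfix A`, `k = ResidueField (Wfix A)`,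
`F = fixF L (HI A)`; components `i : Fin (k + 1)` (`i = b` = the number of `V`-steps, `a = k - i`),
all residue function fields `= FRes A M` as `k`-algebras.

(`jTopL`, `chartP₁L`, `chartP₂L c₀`, `modL` are helper9's, `Inst/Datum`.)

* `c0barK`, `c0WK : Wfix A` : the chart constant (its residue avoids the values of `j̄ ^ q ^ t`,
  `t ≤ k`, at ALL the supersingular places);
* **`modLK L V x`** : helper9's `Inst.modL` for ANY family `V i : RamGaussDatum (Wfix A) F (FRes A M)`
  and any family of multi-points `x i c` with `IsSSFam x` (every `x i` is injective and every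
  `x i c` is one of the supersingular places `triplePt c'`; the official choice is
  `x i c = triplePt (cα^[2 i - k] c)`, `SS/Points`):
  `π = q`, `e i = CountK.eK q k i`, `w i j = CountK.wK q k i j`, `i₀ = 0`, `s = nS`,
  `c₀ = c0WK`, `𝓛 = Fin.chartL L (HI A) P₁ P₂`, `d₁ = d₂ = ψ(L)`,
  `Q₁ i = (red_i j)_∞`, `Q₂ i = (red_i j - c̄₀)_0`;
* `RedJL L q V` : `red_i j = j̄ ^ q ^ (2 i - k)` (truncated subtraction: `j̄` on the components with
  `a ≥ b`, `j̄ ^ q ^ (b - a)` on those with `a < b`);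
* under `RedJL` all the "easy" fields of `MThick.MCtx (modLK L V x) g (fun _ => gM)`:
  `modLK_hF`, `modLK_π_mem`, `modLK_π_not_unit`, `modLK_exists_zpow_mul_unit`, `modLK_e_pos`,
  `modLK_e_base`, `modLK_Q₁_nonneg`, …, `modLK_deg_Q₁_pos`, **`modLK_deg_Q₁_le`, `modLK_deg_Q₂_le`**,
  `modLK_x_injective`, `modLK_x_not_mem`, `modLK_w_pos`, `modLK_w_symm`, **`modLK_count`**,
  `modLK_s_pos`, and `modLK_hasChartsM`, `modLK_chartHyp`;
* `modMK`, `RedJK` : the special case `L = M * q ^ k` (abbreviations).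
-/
import Mathlib
import Fermat.Agent.S45lib.Inst.Datum
import Fermat.Agent.S45lib.CountK.Mod
import Fermat.Agent.S36lib.Inst.Ctx

set_option autoImplicit false
set_option linter.unusedSectionVars false
set_option linter.unusedVariables false
set_option linter.style.haveILetI false

noncomputable section

namespace Fermat.Agent.S45lib.ModK

open AlgebraicCurve ModularCurve IsLocalRing
open Fermat.Agent.S18lib Fermat.Agent.ProgramR
open Fermat.Agent.S36lib Fermat.Agent.S36lib.Inst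
open Fermat.Agent.S36lib.Thick (RamGaussDatum)
open Fermat.Agent.S36lib.Desc Fermat.Agent.S36lib.Desc2
open Fermat.Agent.S37lib.HeckeInst (FB)
open Fermat.Agent.S45lib.MThick Fermat.Agent.S45lib.CountK Fermat.Agent.S45lib.Inst

local notation "Qb" => AlgebraicClosure ℚ
local notation "GQ" => (AlgebraicClosure ℚ ≃ₐ[ℚ] AlgebraicClosure ℚ)

section Defs

variable (L M q k : ℕ) [NeZero L] [NeZero M] [NeZero q] [hq : Fact q.Prime]
  (A : ValuationSubring Qb) (hqM : ¬ q ∣ M) (hA : A.LiesOverPrime q)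

local notation "kA" => IsLocalRing.ResidueField A
local notation "kW" => IsLocalRing.ResidueField (Wfix A)

/-- a constant of `kA` which is not a value of `j̄ ^ q ^ t`, `t ≤ k`, at a supersingular place -/
def c0barK : kA :=
  Classical.epsilon fun c : kA => ∀ x' ∈ LSb.Unit.modNodes (nodeD1 M q A hqM hA),
    ∀ t : ℕ, t ≤ k → ¬ LSb.HasValueAt x' (Gink.jK A M ^ q ^ t) c

/-- **the chart constant** `c₀ ∈ Wfix A` -/
def c0WK : Wfix A :=
  Classical.epsilon fun w : Wfix A => residue A (inclWA A w) = c0barK M q k A hqM hA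

variable [HasPrincipalDivisors (IsLocalRing.ResidueField (Wfix A)) (FRes A M)]

/-- **THE MODULAR MULTI-COMPONENT THICK DATUM** at the level `L` (`= M q^k`), for any family of
`K`-rational ramified Gauss data `V i` (`= v_{k-i,i}`) and any family `x` of multi-points -/
def modLK (V : Fin (k + 1) → RamGaussDatum (Wfix A) (fixF L (HI A)) (FRes A M))
    (x : Fin (k + 1) → Fin (nS M q A hqM hA) →
      AlgebraicCurve.Place (IsLocalRing.ResidueField (Wfix A)) (FRes A M)) :
    MDatum (Wfix A) (fixF L (HI A)) (Fin (k + 1)) (fun _ => FRes A M) :=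
  modL L M q A V 0 (fun i => eK q k i) (fun i j => wK q k i j) (nS M q A hqM hA) x
    (c0WK M q k A hqM hA)

/-- the special case `L = M * q ^ k` -/
abbrev modMK (V : Fin (k + 1) → RamGaussDatum (Wfix A) (FTopK M q k A) (FRes A M))
    (x : Fin (k + 1) → Fin (nS M q A hqM hA) →
      AlgebraicCurve.Place (IsLocalRing.ResidueField (Wfix A)) (FRes A M)) :
    MDatum (Wfix A) (FTopK M q k A) (Fin (k + 1)) (fun _ => FRes A M) :=
  modLK (M * q ^ k) M q k A hqM hA V x

/-- the multi-points are supersingular places, injectively on every component -/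
structure IsSSFam (x : Fin (k + 1) → Fin (nS M q A hqM hA) →
    AlgebraicCurve.Place (IsLocalRing.ResidueField (Wfix A)) (FRes A M)) : Prop where
  inj : ∀ i, Function.Injective (x i)
  ss : ∀ i c, ∃ c', x i c = triplePt M q A hqM hA c'

end Defs

section Modular

variable {L M q k : ℕ} [NeZero L] [NeZero M] [NeZero q] [hq : Fact q.Prime]
  {A : ValuationSubring Qb}
  {hqM : ¬ q ∣ M} {hA : A.LiesOverPrime q}

local notation "kA" => IsLocalRing.ResidueField A
local notation "kW" => IsLocalRing.ResidueField (Wfix A)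

variable [HasPrincipalDivisors (IsLocalRing.ResidueField A) (FRes A M)]

/-! ### the chart constant -/

theorem c0barK_spec :
    ∀ x' ∈ LSb.Unit.modNodes (nodeD1 M q A hqM hA), ∀ t : ℕ, t ≤ k →
      ¬ LSb.HasValueAt x' (Gink.jK A M ^ q ^ t) (c0barK M q k A hqM hA) := by
  classical
  have : IsAlgClosed kA := Gink.isAlgClosed_residueField A
  have hfin := LSb.Unit.modNodes_finite (isGaussOne_nodeD1 M q A hqM hA)
  have hbad : (⋃ x' ∈ LSb.Unit.modNodes (nodeD1 M q A hqM hA),
      ⋃ t ∈ (Finset.range (k + 1) : Set ℕ),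
        {c : kA | LSb.HasValueAt x' (Gink.jK A M ^ q ^ t) c}).Finite := by
    refine Set.Finite.biUnion hfin fun x' _ =>
      Set.Finite.biUnion (Finset.finite_toSet _) fun t _ => Set.Subsingleton.finite ?_
    intro c hc d hd
    exact LSb.HasValueAt.unique hc hd
  obtain ⟨c, hc⟩ := hbad.infinite_compl.nonempty
  have hex : ∃ c : kA, ∀ x' ∈ LSb.Unit.modNodes (nodeD1 M q A hqM hA), ∀ t : ℕ, t ≤ k →
      ¬ LSb.HasValueAt x' (Gink.jK A M ^ q ^ t) c := by
    refine ⟨c, fun x' hx' t ht h => hc ?_⟩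
    refine Set.mem_biUnion hx' (Set.mem_biUnion ?_ h)
    rw [Finset.mem_coe, Finset.mem_range]
    omega
  exact Classical.epsilon_spec hex

theorem residue_c0WK :
    residue A (inclWA A (c0WK M q k A hqM hA)) = c0barK M q k A hqM hA := by
  have hex : ∃ w : Wfix A, residue A (inclWA A w) = c0barK M q k A hqM hA := by
    obtain ⟨c, hc⟩ := (resMap_bijective hq.out hA).2 (c0barK M q k A hqM hA)
    obtain ⟨w, rfl⟩ := residue_surjective c
    exact ⟨w, by rw [← resMap_residue]; exact hc⟩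
  exact Classical.epsilon_spec hex

theorem resMap_residue_c0WK :
    resMap A (residue (Wfix A) (c0WK M q k A hqM hA)) = c0barK M q k A hqM hA := by
  rw [resMap_residue, residue_c0WK]

/-- `j̄ ^ q ^ t` does not take the value `c̄₀` at the triple points -/
theorem not_hasValueAt_triplePtK (c : Fin (nS M q A hqM hA)) {t : ℕ} (ht : t ≤ k) :
    ¬ (triplePt M q A hqM hA c).adicValuation
      (Gink.jK A M ^ q ^ t -
        algebraMap kW (FRes A M) (residue (Wfix A) (c0WK M q k A hqM hA))) < 1 := by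
  have h := c0barK_spec (k := k) (hqM := hqM) (hA := hA) _ (ssPt_mem c) t ht
  rw [algebraMap_resW, resMap_residue_c0WK]
  exact h

/-! ### the reductions of `j` -/

variable [HasPrincipalDivisors (IsLocalRing.ResidueField (Wfix A)) (FRes A M)]

/-- the reductions of `j` on the `k + 1` components: `red_i j = j̄ ^ q ^ (2 i - k)` -/
def RedJL (L : ℕ) [NeZero L] (q : ℕ)
    (V : Fin (k + 1) → RamGaussDatum (Wfix A) (fixF L (HI A)) (FRes A M)) : Prop :=
  ∀ i : Fin (k + 1), gRed (V i) (jTopL L A) = Gink.jK A M ^ q ^ (2 * (i : ℕ) - k)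

variable {V : Fin (k + 1) → RamGaussDatum (Wfix A) (fixF L (HI A)) (FRes A M)}
variable {x : Fin (k + 1) → Fin (nS M q A hqM hA) →
  AlgebraicCurve.Place (IsLocalRing.ResidueField (Wfix A)) (FRes A M)}

/-! ### the base fields -/

theorem modLK_hF (hq' : q.Prime) (hA' : A.LiesOverPrime q) {gM : ℕ}
    (hFk : IsCurveOfGenus kA (FRes A M) gM) (i : Fin (k + 1)) :
    IsCurveOfGenus kW ((fun _ : Fin (k + 1) => FRes A M) i) gM :=
  isCurveOfGenus_resW hq' hA' hFk

theorem modLK_π_mem : (modLK L M q k A hqM hA V x).π ∈ Wfix A := qK_mem A q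

theorem modLK_π_not_unit : (modLK L M q k A hqM hA V x).π⁻¹ ∉ Wfix A := qK_inv_not_mem hq.out hA

theorem modLK_exists_zpow_mul_unit (c : Kfix A) (hc : c ≠ 0) :
    ∃ m : ℤ, c * (modLK L M q k A hqM hA V x).π ^ (-m) ∈ Wfix A ∧
      (c * (modLK L M q k A hqM hA V x).π ^ (-m))⁻¹ ∈ Wfix A :=
  exists_zpow_mul_unit hq.out hA c hc

theorem modLK_e (i : Fin (k + 1)) : (modLK L M q k A hqM hA V x).e i = eK q k i := rfl

theorem modLK_w (i j : Fin (k + 1)) : (modLK L M q k A hqM hA V x).w i j = wK q k i j := rfl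

theorem modLK_s : (modLK L M q k A hqM hA V x).s = nS M q A hqM hA := rfl

theorem modLK_i₀ : (modLK L M q k A hqM hA V x).i₀ = 0 := rfl

theorem modLK_x (i : Fin (k + 1)) : (modLK L M q k A hqM hA V x).x i = x i := rfl

theorem modLK_d₁ : (modLK L M q k A hqM hA V x).d₁ = dedekindPsi L := rfl

theorem modLK_d₂ : (modLK L M q k A hqM hA V x).d₂ = dedekindPsi L := rfl

theorem modLK_e_pos (i : Fin (k + 1)) : 0 < (modLK L M q k A hqM hA V x).e i :=
  eK_pos hq.out.pos k i

theorem modLK_e_base : (modLK L M q k A hqM hA V x).e (modLK L M q k A hqM hA V x).i₀ = 1 := by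
  show eK q k ((0 : Fin (k + 1)) : ℕ) = 1
  unfold eK
  rw [Fin.val_zero, Nat.zero_min, pow_zero, Nat.totient_one]

theorem modLK_w_pos (i j : Fin (k + 1)) (hij : i ≠ j) : 0 < (modLK L M q k A hqM hA V x).w i j :=
  wK_pos hq.out.pos k i j

theorem modLK_w_symm (i j : Fin (k + 1)) :
    (modLK L M q k A hqM hA V x).w i j = (modLK L M q k A hqM hA V x).w j i :=
  wK_symm q k i j

theorem modLK_s_pos {gM : ℕ} (hFk : IsCurveOfGenus kA (FRes A M) gM) :
    0 < (modLK L M q k A hqM hA V x).s :=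
  LSb.Unit.modS_pos hA (isGaussOne_nodeD1 M q A hqM hA) hFk

theorem modLK_x_injective (hx : IsSSFam M q k A hqM hA x) (i : Fin (k + 1)) :
    Function.Injective ((modLK L M q k A hqM hA V x).x i) :=
  hx.inj i

/-! ### the shape of the reduced charts -/

theorem modLK_Q₁_nonneg (i : Fin (k + 1)) : 0 ≤ (modLK L M q k A hqM hA V x).Q₁ i :=
  polesOf_nonneg _

theorem modLK_Q₂_nonneg (i : Fin (k + 1)) : 0 ≤ (modLK L M q k A hqM hA V x).Q₂ i :=
  zerosOf_nonneg _

theorem modLK_Q_disjoint (i : Fin (k + 1)) :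
    Disjoint ((modLK L M q k A hqM hA V x).Q₁ i).support
      ((modLK L M q k A hqM hA V x).Q₂ i).support :=
  chartM_Q_disjoint _ _ _ _ _ _ _ _ _ _ _ i

theorem modLK_degree_Q₂ (i : Fin (k + 1)) :
    Divisor.degree ((modLK L M q k A hqM hA V x).Q₂ i) =
      Divisor.degree ((modLK L M q k A hqM hA V x).Q₁ i) :=
  chartM_degree_Q₂ _ _ _ _ _ _ _ _ _ _ _ i

theorem modLK_Q₁ (h : RedJL L q V) (i : Fin (k + 1)) :
    (modLK L M q k A hqM hA V x).Q₁ i =
      polesOf (K := kW) (Gink.jK A M ^ q ^ (2 * (i : ℕ) - k)) := by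
  show polesOf (K := kW) (gRed (V i) (jTopL L A)) = _
  rw [h i]

theorem modLK_Q₂ (h : RedJL L q V) (i : Fin (k + 1)) :
    (modLK L M q k A hqM hA V x).Q₂ i =
      zerosOf (K := kW) (Gink.jK A M ^ q ^ (2 * (i : ℕ) - k) -
        algebraMap kW (FRes A M) (residue (Wfix A) (c0WK M q k A hqM hA))) := by
  show zerosOf (K := kW) (gRed (V i) (jTopL L A) - _) = _
  rw [h i]

variable [HasPrincipalDivisors Qb (FBar M)]

theorem modLK_degree_Q₁ (h : RedJL L q V) (i : Fin (k + 1)) :
    Divisor.degree ((modLK L M q k A hqM hA V x).Q₁ i) =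
      ((q ^ (2 * (i : ℕ) - k) : ℕ) : ℤ) * (dedekindPsi M : ℤ) := by
  rw [modLK_Q₁ h, LSb.Old.degree_polesOf_pow, degree_polesOf_jK_resW hqM hA]

theorem modLK_deg_Q₁_pos (h : RedJL L q V) (i : Fin (k + 1)) :
    0 < Divisor.degree ((modLK L M q k A hqM hA V x).Q₁ i) := by
  rw [modLK_degree_Q₁ h]
  have h1 : (0 : ℤ) < ((q ^ (2 * (i : ℕ) - k) : ℕ) : ℤ) := by
    exact_mod_cast pow_pos hq.out.pos _
  exact mul_pos h1 dedekindPsi_pos'

theorem modLK_deg_Q₂_pos (h : RedJL L q V) (i : Fin (k + 1)) :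
    0 < Divisor.degree ((modLK L M q k A hqM hA V x).Q₂ i) := by
  rw [modLK_degree_Q₂]
  exact modLK_deg_Q₁_pos h i

/-- **`deg_Q₁_le`** (an equality): `Σ_i e_i q^{(2i-k)⁺} ψ(M) = ψ(M q^k)` -/
theorem modLK_deg_Q₁_le (hL : L = M * q ^ k) (hqM' : ¬ q ∣ M) (hk : 1 ≤ k) (h : RedJL L q V) :
    ∑ i, ((modLK L M q k A hqM hA V x).e i : ℤ) *
        Divisor.degree ((modLK L M q k A hqM hA V x).Q₁ i) ≤
      (modLK L M q k A hqM hA V x).d₁ := by
  obtain ⟨k', rfl⟩ : ∃ k', k = k' + 1 := ⟨k - 1, by omega⟩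
  have h1 : ∀ i : Fin (k' + 1 + 1),
      ((modLK L M q (k' + 1) A hqM hA V x).e i : ℤ) *
        Divisor.degree ((modLK L M q (k' + 1) A hqM hA V x).Q₁ i) =
      ((eK q (k' + 1) i * q ^ (2 * (i : ℕ) - (k' + 1)) : ℕ) : ℤ) * (dedekindPsi M : ℤ) := by
    intro i
    rw [modLK_degree_Q₁ h, modLK_e]
    push_cast
    ring
  rw [Finset.sum_congr rfl fun i _ => h1 i, ← Finset.sum_mul, ← Nat.cast_sum,
    sum_fin_eK_mul_f hq.out hk, modLK_d₁, hL,
    dedekindPsi_mul_prime_pow (NeZero.ne M) hq.out hqM' k', Nat.add_sub_cancel]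
  apply le_of_eq
  push_cast
  ring

/-- **`deg_Q₂_le`** (an equality) -/
theorem modLK_deg_Q₂_le (hL : L = M * q ^ k) (hqM' : ¬ q ∣ M) (hk : 1 ≤ k) (h : RedJL L q V) :
    ∑ i, ((modLK L M q k A hqM hA V x).e i : ℤ) *
        Divisor.degree ((modLK L M q k A hqM hA V x).Q₂ i) ≤
      (modLK L M q k A hqM hA V x).d₂ := by
  rw [Finset.sum_congr rfl fun i _ => by rw [modLK_degree_Q₂]]
  exact modLK_deg_Q₁_le hL hqM' hk h

/-! ### the multi-points avoid the boundaries of the charts -/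

theorem modLK_x_not_mem (hx : IsSSFam M q k A hqM hA x) (h : RedJL L q V) (i : Fin (k + 1))
    (c : Fin (nS M q A hqM hA)) :
    (modLK L M q k A hqM hA V x).x i c ∉ ((modLK L M q k A hqM hA V x).Q₁ i).support ∧
      (modLK L M q k A hqM hA V x).x i c ∉ ((modLK L M q k A hqM hA V x).Q₂ i).support := by
  rw [modLK_Q₁ h, modLK_Q₂ h, modLK_x]
  obtain ⟨c', hc'⟩ := hx.ss i c
  rw [hc']
  have ht : 2 * (i : ℕ) - k ≤ k := by have := i.2; omega
  exact ⟨LSb.Unit.not_mem_support_polesOf (pow_mem (jK_mem_triplePt c') _),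
    LSb.Unit.not_mem_support_zerosOf (not_hasValueAt_triplePtK c' ht)⟩

/-! ### count -/

/-- **`count`** at the auxiliary levels -/
theorem modLK_count (hL : L = M * q ^ k) (hqM' : ¬ q ∣ M) (haux : Fin.IsAuxLevel M q)
    (hk : 1 ≤ k) {g gM : ℕ}
    (hF : IsCurveOfGenus Qb (FBar L) g) (hFk : IsCurveOfGenus kA (FRes A M) gM) :
    2 * (g : ℤ) - 2 ≤
      2 * ∑ i, ((modLK L M q k A hqM hA V x).e i : ℤ) * (((fun _ => gM) i : ℕ) - 1 : ℤ) +
      ((modLK L M q k A hqM hA V x).s : ℤ) * ∑ i, ∑ j, if i = j then 0 else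
        ((modLK L M q k A hqM hA V x).e j : ℤ) * ((modLK L M q k A hqM hA V x).w i j : ℤ) :=
  count_pow_of_isAuxLevel_of_eq hqM hA haux hk hL hF hFk

/-! ### the charts of the generic fibre -/

/-- the chart family of `modLK L V x` is `chartL` of `(P₁, P₂)` -/
theorem modLK_hasChartsM :
    HasChartsM (modLK L M q k A hqM hA V x) (chartP₁L L A)
      (chartP₂L L A (c0WK M q k A hqM hA)) :=
  modL_hasCharts L M q A V 0 _ _ _ x _

/-- the chart hypotheses of the generic fibre -/
theorem modLK_chartHyp {g : ℕ} (hF : IsCurveOfGenus Qb (FB L) g) :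
    Fin.ChartHyp L (HI A) (chartP₁L L A) (chartP₂L L A (c0WK M q k A hqM hA)) g :=
  chartHypL L A hF (c0WK M q k A hqM hA)

/-- the special case `L = M * q ^ k` of `RedJL` -/
abbrev RedJK (V : Fin (k + 1) → RamGaussDatum (Wfix A) (FTopK M q k A) (FRes A M)) : Prop :=
  RedJL (M * q ^ k) q V

end Modular

end Fermat.Agent.S45lib.ModK
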