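/-
S45lib / ModK / Ctx  (helper5)  --  block (Inst_k) of Project J

**`MThick.MCtx (modLK L V x) g (fun _ => gM)` at an auxiliary level `L = M q^k` (any spelling of
the level: `hL : L = M * q ^ k`), from the valuation-side inputs only.**  All the fields which do not involve the valuations beyond `RedJK V`
(`RedJL`: `red_i j = j̄ ^ q ^ (2 i - k)`) are supplied by `ModK/Datum` (base DVR, multiplicities, weights,
shape and degrees of the reduced charts, multi-points, count) and `Inst/Charts` (the chart family of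
the generic fibre).  What remains as hypotheses is exactly the (KM)/(SS) output:

* `hunif`  : `ϖ_i ^ e_i = q · unit` in `O_i`;
* `hD`     : (N1) for the ball `⨅ O_i`;
* `hchart` : (CHART) on every component;
* `hglue`  : (GLUE) at the supersingular points;
* `hmult`  : (MULT).
-/
import Mathlib
import Fermat.Agent.S45lib.ModK.Datum

set_option autoImplicit false
set_option linter.unusedSectionVars false
set_option linter.unusedVariables false
set_option linter.style.haveILetI false

noncomputable section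

namespace Fermat.Agent.S45lib.ModK

open AlgebraicCurve ModularCurve IsLocalRing
open Fermat.Agent.S18lib Fermat.Agent.ProgramR
open Fermat.Agent.S36lib Fermat.Agent.S36lib.Inst
open Fermat.Agent.S36lib.Thick (RamGaussDatum)
open Fermat.Agent.S36lib.Desc Fermat.Agent.S36lib.Desc2
open Fermat.Agent.S37lib.HeckeInst (FB)
open Fermat.Agent.S45lib.MThick Fermat.Agent.S45lib.CountK Fermat.Agent.S45lib.Inst
open Fermat.Agent.LSb (HasValueAt)

local notation "Qb" => AlgebraicClosure ℚ

variable {L M q k : ℕ} [NeZero L] [NeZero M] [NeZero q] [hq : Fact q.Prime]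
  {A : ValuationSubring Qb}
  {hqM : ¬ q ∣ M} {hA : A.LiesOverPrime q}

local notation "kA" => IsLocalRing.ResidueField A
local notation "kW" => IsLocalRing.ResidueField (Wfix A)

variable [HasPrincipalDivisors (IsLocalRing.ResidueField A) (FRes A M)]
variable [HasPrincipalDivisors (IsLocalRing.ResidueField (Wfix A)) (FRes A M)]
variable [HasPrincipalDivisors Qb (FBar M)]
variable {V : Fin (k + 1) → RamGaussDatum (Wfix A) (fixF L (HI A)) (FRes A M)}
variable {x : Fin (k + 1) → Fin (nS M q A hqM hA) →
  AlgebraicCurve.Place (IsLocalRing.ResidueField (Wfix A)) (FRes A M)}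

/-- **the modular `MCtx` at an auxiliary level `M q^k`** from `RedJK` and the (KM)/(SS) fields. -/
theorem mctx_modLK_of (hL : L = M * q ^ k) (haux : Fin.IsAuxLevel M q) (hk : 1 ≤ k)
    (h : RedJL L q V) (hx : IsSSFam M q k A hqM hA x) {g gM : ℕ}
    (hF : IsCurveOfGenus Qb (FBar L) g) (hFk : IsCurveOfGenus kA (FRes A M) gM)
    (hunif : ∀ i, ∃ u : ((modLK L M q k A hqM hA V x).V i).Oˣ,
      (modLK L M q k A hqM hA V x).ϖ i ^ (modLK L M q k A hqM hA V x).e i =
        algebraMap (Kfix A) (fixF L (HI A)) (modLK L M q k A hqM hA V x).π *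
          ((u : ((modLK L M q k A hqM hA V x).V i).O) : fixF L (HI A)))
    (hD : (modLK L M q k A hqM hA V x).HasLatticeBases)
    (hchart : ∀ (i : Fin (k + 1)) (a b : ℕ) (f : fixF L (HI A)),
      f ∈ (modLK L M q k A hqM hA V x).𝓛 a b → f ∈ (modLK L M q k A hqM hA V x).O →
      (modLK L M q k A hqM hA V x).redF i f ∈
        riemannRochSpace ((modLK L M q k A hqM hA V x).chartDiv i a b))
    (hglue : ∀ (a b : ℕ) (f : fixF L (HI A)), f ∈ (modLK L M q k A hqM hA V x).𝓛 a b →
      f ∈ (modLK L M q k A hqM hA V x).O → ∀ c, ∃ α : kW,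
        ∀ i, HasValueAt ((modLK L M q k A hqM hA V x).x i c) ((modLK L M q k A hqM hA V x).redF i f) α)
    (hmult : ∀ (i : Fin (k + 1)) (a b : ℕ) (f : fixF L (HI A)),
      f ∈ (modLK L M q k A hqM hA V x).𝓛 a b → ∀ β : Fin (k + 1) → ℕ, β i = 0 →
      (∀ j, (modLK L M q k A hqM hA V x).Ge j (β j) f) → ∀ c,
        (modLK L M q k A hqM hA V x).redF i f = 0 ∨
          (∑ j, (β j : ℤ) * ((modLK L M q k A hqM hA V x).w i j : ℤ)) ≤
            ((modLK L M q k A hqM hA V x).x i c).ord ((modLK L M q k A hqM hA V x).redF i f)) :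
    MCtx (modLK L M q k A hqM hA V x) g (fun _ => gM) := by
  have hC := modLK_chartHyp (k := k) (hqM := hqM) (hA := hA) hF
  have hCh := modLK_hasChartsM (k := k) (hqM := hqM) (hA := hA) (V := V) (x := x)
  exact
    { hF := modLK_hF hq.out hA hFk
      π_mem := modLK_π_mem
      π_not_unit := modLK_π_not_unit
      exists_zpow_mul_unit := modLK_exists_zpow_mul_unit
      e_pos := modLK_e_pos
      unif_pow := hunif
      e_base := modLK_e_base
      hD := hD
      finiteDimensional := hCh.finiteDimensional hC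
      mono := fun ha hb => hCh.mono hC ha hb
      inter := hCh.inter hC
      mul_mem := fun hf hf' => hCh.mul_mem hC hf hf'
      one_mem := hCh.one_mem hC
      riemann := hCh.riemann hC
      Q₁_nonneg := modLK_Q₁_nonneg
      Q₂_nonneg := modLK_Q₂_nonneg
      Q_disjoint := modLK_Q_disjoint
      deg_Q₁_pos := modLK_deg_Q₁_pos h
      deg_Q₂_pos := modLK_deg_Q₂_pos h
      deg_Q₁_le := modLK_deg_Q₁_le hL hqM hk h
      deg_Q₂_le := modLK_deg_Q₂_le hL hqM hk h
      x_injective := modLK_x_injective hx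
      x_not_mem := modLK_x_not_mem hx h
      w_pos := modLK_w_pos
      w_symm := modLK_w_symm
      chart := hchart
      glue := hglue
      mult := hmult
      count := modLK_count hL hqM haux hk hF hFk
      s_pos := modLK_s_pos hFk }

/-- the special case `L = M * q ^ k` (`modMK = modLK (M * q ^ k)`, `RedJK = RedJL (M * q ^ k) q`) -/
theorem mctx_modMK_of {V : Fin (k + 1) → RamGaussDatum (Wfix A) (FTopK M q k A) (FRes A M)}
    {x : Fin (k + 1) → Fin (nS M q A hqM hA) →
      AlgebraicCurve.Place (IsLocalRing.ResidueField (Wfix A)) (FRes A M)}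
    (haux : Fin.IsAuxLevel M q) (hk : 1 ≤ k) (h : RedJK V)
    (hx : IsSSFam M q k A hqM hA x) {g gM : ℕ}
    (hF : IsCurveOfGenus Qb (FBar (M * q ^ k)) g) (hFk : IsCurveOfGenus kA (FRes A M) gM)
    (hunif : ∀ i, ∃ u : ((modMK M q k A hqM hA V x).V i).Oˣ,
      (modMK M q k A hqM hA V x).ϖ i ^ (modMK M q k A hqM hA V x).e i =
        algebraMap (Kfix A) (FTopK M q k A) (modMK M q k A hqM hA V x).π *
          ((u : ((modMK M q k A hqM hA V x).V i).O) : FTopK M q k A))
    (hD : (modMK M q k A hqM hA V x).HasLatticeBases)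
    (hchart : ∀ (i : Fin (k + 1)) (a b : ℕ) (f : FTopK M q k A),
      f ∈ (modMK M q k A hqM hA V x).𝓛 a b → f ∈ (modMK M q k A hqM hA V x).O →
      (modMK M q k A hqM hA V x).redF i f ∈
        riemannRochSpace ((modMK M q k A hqM hA V x).chartDiv i a b))
    (hglue : ∀ (a b : ℕ) (f : FTopK M q k A), f ∈ (modMK M q k A hqM hA V x).𝓛 a b →
      f ∈ (modMK M q k A hqM hA V x).O → ∀ c, ∃ α : kW,
        ∀ i, HasValueAt ((modMK M q k A hqM hA V x).x i c)
          ((modMK M q k A hqM hA V x).redF i f) α)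
    (hmult : ∀ (i : Fin (k + 1)) (a b : ℕ) (f : FTopK M q k A),
      f ∈ (modMK M q k A hqM hA V x).𝓛 a b → ∀ β : Fin (k + 1) → ℕ, β i = 0 →
      (∀ j, (modMK M q k A hqM hA V x).Ge j (β j) f) → ∀ c,
        (modMK M q k A hqM hA V x).redF i f = 0 ∨
          (∑ j, (β j : ℤ) * ((modMK M q k A hqM hA V x).w i j : ℤ)) ≤
            ((modMK M q k A hqM hA V x).x i c).ord ((modMK M q k A hqM hA V x).redF i f)) :
    MCtx (modMK M q k A hqM hA V x) g (fun _ => gM) :=
  mctx_modLK_of rfl haux hk h hx hF hFk hunif hD hchart hglue hmult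

end Fermat.Agent.S45lib.ModK
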